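import Mathlib

/-! # S14/U1: eigenspaces mod `p` of an endomorphism of a lattice with a cyclic vector -/

set_option autoImplicit false

namespace Fermat.Agent.S14.U1

open Finset Polynomial

/-- `M` a free `ℤ`-module of rank `n - 1`, `g` an endomorphism with `1 + g + ⋯ + g^(n-1) = 0` and
a vector `m` such that `m, g m, …, g^(n-2) m` are linearly independent. Then the characteristic
polynomial of `g` is `1 + T + ⋯ + T^(n-1)` (Cayley-Hamilton: the difference has degree `< n - 1`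
and kills `m`). -/
theorem charpoly_eq_geom_sum {M : Type} [AddCommGroup M] [Module.Free ℤ M] [Module.Finite ℤ M]
    (n : ℕ) (hn : 0 < n) (hrank : Module.finrank ℤ M = n - 1) (g : M →ₗ[ℤ] M)
    (hΦ : ∑ i ∈ range n, g ^ i = 0) (m : M)
    (hind : ∀ a : ℕ → ℤ, ∑ i ∈ range (n - 1), a i • (g ^ i) m = 0 → ∀ i < n - 1, a i = 0) :
    g.charpoly = ∑ i ∈ range n, (X : ℤ[X]) ^ i := by
  by_contra hne
  set P := g.charpoly with hP
  set Q : ℤ[X] := ∑ i ∈ range n, (X : ℤ[X]) ^ i with hQ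
  have hPm : P.Monic := g.charpoly_monic
  have hPd : P.natDegree = n - 1 := by rw [hP, LinearMap.charpoly_natDegree, hrank]
  obtain ⟨k, rfl⟩ : ∃ k, n = k + 1 := ⟨n - 1, by omega⟩
  simp only [Nat.add_sub_cancel] at *
  have hQ' : Q = X ^ k + ∑ i ∈ range k, (X : ℤ[X]) ^ i := by
    rw [hQ, sum_range_succ, add_comm]
  have hlow : (∑ i ∈ range k, (X : ℤ[X]) ^ i).degree < (k : WithBot ℕ) := by
    rw [degree_lt_iff_coeff_zero]
    intro j hj
    rw [finsetSum_coeff]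
    apply Finset.sum_eq_zero
    intro i hi
    rw [coeff_X_pow, if_neg]
    have := mem_range.mp hi
    omega
  have hQm : Q.Monic := by
    rw [hQ']
    exact monic_X_pow_add hlow
  have hQd : Q.natDegree = k := by
    rw [hQ']
    apply natDegree_eq_of_degree_eq_some
    rw [degree_add_eq_left_of_degree_lt (by rw [degree_X_pow]; exact hlow), degree_X_pow]
  have hD0 : P - Q ≠ 0 := sub_ne_zero.mpr hne
  have hDdeg : (P - Q).degree < P.degree := by
    apply degree_sub_lt_left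
    · rw [degree_eq_natDegree hPm.ne_zero, degree_eq_natDegree hQm.ne_zero, hPd, hQd]
    · exact hPm.ne_zero
    · rw [hPm.leadingCoeff, hQm.leadingCoeff]
  have hDnat : (P - Q).natDegree < k := by
    rw [natDegree_lt_iff_degree_lt hD0]
    rwa [degree_eq_natDegree hPm.ne_zero, hPd] at hDdeg
  have haev : aeval g (P - Q) = 0 := by
    rw [map_sub, hP, LinearMap.aeval_self_charpoly, hQ, map_sum]
    simp only [map_pow, aeval_X, hΦ, sub_zero]
  have hsum : ∑ i ∈ range k, (P - Q).coeff i • (g ^ i) m = 0 := by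
    have := congrArg (fun φ : M →ₗ[ℤ] M => φ m) haev
    rw [aeval_eq_sum_range' hDnat] at this
    simpa only [LinearMap.coe_sum, Finset.sum_apply, LinearMap.smul_apply,
      LinearMap.zero_apply] using this
  have hc := hind (fun i => (P - Q).coeff i) hsum
  apply hD0
  ext i
  by_cases hi : i < k
  · simpa using hc i hi
  · rw [coeff_zero]
    exact coeff_eq_zero_of_natDegree_lt (by omega)

/-- kernel of `M → ZMod p ⊗ M` -/
theorem exists_smul_of_tmul_eq_zero {M : Type} [AddCommGroup M] [Module.Free ℤ M]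
    (p : ℕ) [Fact p.Prime] (m : M) (h : (1 : ZMod p) ⊗ₜ[ℤ] m = 0) : ∃ m' : M, m = p • m' := by
  classical
  let b := Module.Free.chooseBasis ℤ M
  have hdiv : ∀ i, (p : ℤ) ∣ b.repr m i := by
    intro i
    have h1 := congrArg (fun x => (Algebra.TensorProduct.basis (ZMod p) b).repr x i) h
    simp only [Algebra.TensorProduct.basis_repr_tmul, one_smul, Finsupp.mapRange_apply, map_zero,
      Finsupp.coe_zero, Pi.zero_apply] at h1
    have h2 : ((b.repr m i : ℤ) : ZMod p) = 0 := by simpa using h1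
    exact (ZMod.intCast_zmod_eq_zero_iff_dvd _ _).mp h2
  refine ⟨b.repr.symm (Finsupp.mapRange (fun z : ℤ => z / p) (by simp) (b.repr m)), ?_⟩
  apply b.repr.injective
  ext i
  rw [map_nsmul, LinearEquiv.apply_symm_apply, Finsupp.smul_apply, Finsupp.mapRange_apply,
    nsmul_eq_mul]
  exact (Int.mul_ediv_cancel' (hdiv i)).symm

/-- If `p ∤ n`, all eigenspaces of `g` on `M / p M` have dimension `≤ 1`
(`charpoly` mod `p` divides `T^n - 1`, which is separable; `LinearMap.charpoly_baseChange`,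
`Module.End.finrank_eigenspace_le`, `Polynomial.rootMultiplicity_le_one_of_separable`). -/
theorem eigen_dependent {M : Type} [AddCommGroup M] [Module.Free ℤ M] [Module.Finite ℤ M]
    (p n : ℕ) [Fact p.Prime] (hpn : ¬ p ∣ n) (g : M →ₗ[ℤ] M)
    (hchar : g.charpoly = ∑ i ∈ range n, (X : ℤ[X]) ^ i)
    (l : ℤ) (m₁ m₂ : M) (h₁ : ∃ m' : M, g m₁ = l • m₁ + p • m')
    (h₂ : ∃ m' : M, g m₂ = l • m₂ + p • m') :
    ∃ (a b : ℕ) (m' : M), ¬ (p ∣ a ∧ p ∣ b) ∧ a • m₁ + b • m₂ = p • m' := by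
  classical
  set G : Module.End (ZMod p) (TensorProduct ℤ (ZMod p) M) := g.baseChange (ZMod p) with hG
  have hGchar : G.charpoly = ∑ i ∈ range n, (X : (ZMod p)[X]) ^ i := by
    rw [hG, LinearMap.charpoly_baseChange, hchar, Polynomial.map_sum]
    simp
  have hnk : ((n : ℕ) : ZMod p) ≠ 0 := by
    rwa [Ne, ZMod.natCast_eq_zero_iff]
  have hsep : G.charpoly.Separable := by
    have h1 : (X ^ n - C (1 : ZMod p)).Separable := separable_X_pow_sub_C 1 hnk one_ne_zero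
    have h2 : (∑ i ∈ range n, (X : (ZMod p)[X]) ^ i) * (X - 1) = X ^ n - C (1 : ZMod p) := by
      rw [geom_sum_mul, map_one]
    rw [← h2] at h1
    rw [hGchar]
    exact h1.of_mul_left
  have hfin : Module.finrank (ZMod p) (G.eigenspace (l : ZMod p)) ≤ 1 :=
    (LinearMap.finrank_eigenspace_le G _).trans (rootMultiplicity_le_one_of_separable hsep _)
  have hmem : ∀ m : M, (∃ m' : M, g m = l • m + p • m') →
      (1 : ZMod p) ⊗ₜ[ℤ] m ∈ G.eigenspace (l : ZMod p) := by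
    rintro m ⟨m', hm'⟩
    rw [Module.End.mem_eigenspace_iff, hG, LinearMap.baseChange_tmul, hm', TensorProduct.tmul_add,
      TensorProduct.tmul_smul, TensorProduct.tmul_smul]
    have e1 : p • ((1 : ZMod p) ⊗ₜ[ℤ] m') = 0 := by
      rw [← Nat.cast_smul_eq_nsmul (ZMod p)]
      simp
    rw [e1, add_zero, ← Int.cast_smul_eq_zsmul (ZMod p)]
  obtain ⟨v0, hv0⟩ := finrank_le_one_iff.mp hfin
  obtain ⟨c₁, hc₁⟩ := hv0 ⟨_, hmem m₁ h₁⟩
  obtain ⟨c₂, hc₂⟩ := hv0 ⟨_, hmem m₂ h₂⟩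
  have hc₁' : c₁ • (v0 : TensorProduct ℤ (ZMod p) M) = (1 : ZMod p) ⊗ₜ[ℤ] m₁ :=
    congrArg Subtype.val hc₁
  have hc₂' : c₂ • (v0 : TensorProduct ℤ (ZMod p) M) = (1 : ZMod p) ⊗ₜ[ℤ] m₂ :=
    congrArg Subtype.val hc₂
  -- a nontrivial relation
  obtain ⟨α, β, hαβ, hrel⟩ : ∃ α β : ZMod p, ¬ (α = 0 ∧ β = 0) ∧
      α • ((1 : ZMod p) ⊗ₜ[ℤ] m₁) + β • ((1 : ZMod p) ⊗ₜ[ℤ] m₂) = 0 := by
    by_cases hz : c₁ = 0
    · refine ⟨1, 0, by simp, ?_⟩
      rw [← hc₁', hz]
      simp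
    · refine ⟨c₂, -c₁, fun h => hz (neg_eq_zero.mp h.2), ?_⟩
      rw [← hc₁', ← hc₂', smul_smul, smul_smul, ← add_smul]
      have : c₂ * c₁ + -c₁ * c₂ = 0 := by ring
      rw [this, zero_smul]
  have hval : ∀ (γ : ZMod p) (m : M), γ • ((1 : ZMod p) ⊗ₜ[ℤ] m) = (1 : ZMod p) ⊗ₜ[ℤ] (γ.val • m) := by
    intro γ m
    rw [TensorProduct.tmul_smul, ← Nat.cast_smul_eq_nsmul (ZMod p), ZMod.natCast_zmod_val]
  rw [hval, hval, ← TensorProduct.tmul_add] at hrel
  obtain ⟨m', hm'⟩ := exists_smul_of_tmul_eq_zero p _ hrel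
  refine ⟨α.val, β.val, m', ?_, hm'⟩
  rintro ⟨ha, hb⟩
  apply hαβ
  constructor
  · have := Nat.eq_zero_of_dvd_of_lt ha (ZMod.val_lt α)
    exact (ZMod.val_eq_zero α).mp this
  · have := Nat.eq_zero_of_dvd_of_lt hb (ZMod.val_lt β)
    exact (ZMod.val_eq_zero β).mp this

end Fermat.Agent.S14.U1
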