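import Mathlib

/-! # S14/U1: a maximum principle for circulant systems (pure real analysis) -/

set_option autoImplicit false

namespace Fermat.Agent.S14.U1

open Finset

/-- The sum of a periodic function over a shifted period. -/
theorem sum_shift_period (n : ℕ) (c : ℕ → ℝ) (hper : ∀ k, c (k + n) = c k) (s : ℕ) :
    ∑ i ∈ range n, c (i + s) = ∑ k ∈ range n, c k := by
  induction s with
  | zero => simp
  | succ s ih =>
    have h1 : ∑ i ∈ range (n + 1), c (i + s) = ∑ i ∈ range n, c (i + s) + c (n + s) :=
      Finset.sum_range_succ _ _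
    have h2 : ∑ i ∈ range (n + 1), c (i + s) = ∑ i ∈ range n, c (i + 1 + s) + c (0 + s) :=
      Finset.sum_range_succ' _ _
    have h3 : c (n + s) = c (0 + s) := by
      rw [add_comm n s, hper, zero_add]
    have h4 : ∑ i ∈ range n, c (i + (s + 1)) = ∑ i ∈ range n, c (i + 1 + s) := by
      refine Finset.sum_congr rfl fun i _ => ?_
      congr 1
      ring
    rw [h4, ← ih]
    linarith

/-- Let `c` be `n`-periodic, negative off the multiples of `n`, with zero sum over a period.
If `∑_{i<n} a_i c(i+s) = 0` for all shifts `s` then `a` is constant on `[0,n)`; so if moreover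
`a (n-1) = 0` then `a = 0` on `[0,n)`.
(Take `j` with `a j` maximal, `s = n - j`: `∑_i (a_i - a_j) c(i+n-j) = 0`, all terms `≥ 0`.) -/
theorem circulant_lemma (n : ℕ) (hn : 0 < n) (c : ℕ → ℝ) (hper : ∀ k, c (k + n) = c k)
    (hneg : ∀ k, ¬ n ∣ k → c k < 0) (hsum : ∑ k ∈ range n, c k = 0)
    (a : ℕ → ℤ) (hlast : a (n - 1) = 0)
    (hrel : ∀ s, ∑ i ∈ range n, (a i : ℝ) * c (i + s) = 0) : ∀ i < n, a i = 0 := by
  obtain ⟨j, hj, hmax⟩ := Finset.exists_max_image (range n) a ⟨0, by simpa using hn⟩
  rw [Finset.mem_range] at hj
  have hs := sum_shift_period n c hper (n - j)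
  have hzero : ∑ i ∈ range n, ((a i : ℝ) - a j) * c (i + (n - j)) = 0 := by
    simp only [sub_mul]
    rw [Finset.sum_sub_distrib, hrel, ← Finset.mul_sum, hs, hsum]
    simp
  have hnonneg : ∀ i ∈ range n, 0 ≤ ((a i : ℝ) - a j) * c (i + (n - j)) := by
    intro i hi
    have h1 : (a i : ℝ) - a j ≤ 0 := by
      have := hmax i hi
      have h' : (a i : ℝ) ≤ a j := by exact_mod_cast this
      linarith
    rw [Finset.mem_range] at hi
    by_cases hij : i = j
    · subst hij; simp
    · have h2 : c (i + (n - j)) < 0 := by
        apply hneg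
        rintro ⟨t, ht⟩
        have ht1 : t = 1 := by
          have hlt : n * t < n * 2 := by omega
          have hgt : n * 0 < n * t := by omega
          have := Nat.lt_of_mul_lt_mul_left hlt
          have := Nat.lt_of_mul_lt_mul_left hgt
          omega
        subst ht1
        omega
      exact mul_nonneg_of_nonpos_of_nonpos h1 h2.le
  have hall := (Finset.sum_eq_zero_iff_of_nonneg hnonneg).mp hzero
  have hconst : ∀ i < n, a i = a j := by
    intro i hi
    by_cases hij : i = j
    · rw [hij]
    · have h2 : c (i + (n - j)) < 0 := by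
        apply hneg
        rintro ⟨t, ht⟩
        have ht1 : t = 1 := by
          have hlt : n * t < n * 2 := by omega
          have hgt : n * 0 < n * t := by omega
          have := Nat.lt_of_mul_lt_mul_left hlt
          have := Nat.lt_of_mul_lt_mul_left hgt
          omega
        subst ht1
        omega
      have h3 := hall i (Finset.mem_range.mpr hi)
      rcases mul_eq_zero.mp h3 with h4 | h4
      · have : (a i : ℝ) = a j := by linarith
        exact_mod_cast this
      · exact absurd h4 h2.ne
  intro i hi
  rw [hconst i hi, ← hconst (n - 1) (by omega), hlast]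

end Fermat.Agent.S14.U1
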