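import Fermat.Agent.S14.Defs
import Fermat.Agent.S14.U1.Circulant

/-! # S14/U1: the Galois action on `E / torsion` for the `p`-th cyclotomic field -/

set_option autoImplicit false
set_option linter.unusedSectionVars false

namespace Fermat.Agent.S14.U1

open NumberField NumberField.Units JacobiSumStickelberger Finset
open scoped NumberField nonZeroDivisors

variable (p : ℕ) [Fact p.Prime] (K : Type) [Field K] [NumberField K]
  [IsCyclotomicExtension {p} ℚ K]

/-- `E / torsion`, additively -/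
def MT : Type := Additive ((𝓞 K)ˣ ⧸ torsion K)

noncomputable instance instAddCommGroupMT : AddCommGroup (MT K) :=
  inferInstanceAs (AddCommGroup (Additive ((𝓞 K)ˣ ⧸ torsion K)))

instance instFreeMT : Module.Free ℤ (MT K) := by
  have := @NumberField.Units.instFreeIntAdditiveQuotientUnitsRingOfIntegersSubgroupTorsion K _ _
  exact this

instance instFiniteMT : Module.Finite ℤ (MT K) := by
  have := @NumberField.Units.instFiniteIntAdditiveQuotientUnitsRingOfIntegersSubgroupTorsion K _ _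
  exact this

theorem finrank_MT : Module.finrank ℤ (MT K) = rank K := finrank_modTorsion K

variable {K} in
/-- the class of a unit -/
def toM (u : (𝓞 K)ˣ) : MT K := Additive.ofMul (QuotientGroup.mk u)

variable {K} in
theorem toM_surjective : Function.Surjective (toM (K := K)) := by
  intro x
  obtain ⟨u, hu⟩ := QuotientGroup.mk_surjective (Additive.toMul x)
  exact ⟨u, by rw [toM, hu]; rfl⟩

variable {K} in
theorem toM_mul (u v : (𝓞 K)ˣ) : toM (u * v) = toM u + toM v := rfl

variable {K} in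
theorem toM_one : toM (1 : (𝓞 K)ˣ) = 0 := rfl

variable {K} in
theorem toM_pow (u : (𝓞 K)ˣ) (k : ℕ) : toM (u ^ k) = k • toM u := rfl

variable {K} in
theorem toM_eq_zero_iff (u : (𝓞 K)ˣ) : toM u = 0 ↔ u ∈ torsion K := by
  rw [← QuotientGroup.eq_one_iff]
  exact Iff.rfl

variable {K} in
theorem toM_prod {ι : Type*} (s : Finset ι) (f : ι → (𝓞 K)ˣ) :
    toM (∏ i ∈ s, f i) = ∑ i ∈ s, toM (f i) := by
  classical
  induction s using Finset.induction_on with
  | empty => simp [toM_one]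
  | insert a s ha ih => rw [Finset.prod_insert ha, Finset.sum_insert ha, toM_mul, ih]

/-- `σ_d` on units -/
noncomputable def sigU (d : (ZMod p)ˣ) : (𝓞 K)ˣ →* (𝓞 K)ˣ :=
  Units.map ((sigInt p K d).toRingHom : 𝓞 K →* 𝓞 K)

theorem coe_sigU (d : (ZMod p)ˣ) (u : (𝓞 K)ˣ) :
    ((sigU p K d u : (𝓞 K)ˣ) : 𝓞 K) = sigInt p K d (u : 𝓞 K) := rfl

theorem sigInt_mul (d e : (ZMod p)ˣ) (x : 𝓞 K) :
    sigInt p K (d * e) x = sigInt p K d (sigInt p K e x) := by
  unfold sigInt
  rw [map_mul]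
  rfl

theorem sigInt_one (x : 𝓞 K) : sigInt p K 1 x = x := by
  unfold sigInt
  rw [map_one]
  rfl

theorem sigU_mul (d e : (ZMod p)ˣ) (u : (𝓞 K)ˣ) :
    sigU p K (d * e) u = sigU p K d (sigU p K e u) := by
  ext
  rw [coe_sigU, coe_sigU, coe_sigU, sigInt_mul]

theorem sigU_one (u : (𝓞 K)ˣ) : sigU p K 1 u = u := by
  ext
  rw [coe_sigU, sigInt_one]

theorem coe_sigInt (d : (ZMod p)ˣ) (x : 𝓞 K) :
    ((sigInt p K d x : 𝓞 K) : K) = sig p K d (x : K) := by
  unfold sigInt sig clRingAction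
  simp only [MonoidHom.comp_apply, galRestrictionDatum_apply]
  exact algebraMap_galRestrict_apply ℤ _ x

theorem sig_zeta (d : (ZMod p)ˣ) {x : K} (hx : x ^ p = 1) :
    sig p K d x = x ^ (d : ZMod p).val := by
  have h := IsCyclotomicExtension.Rat.galEquivZMod_apply_of_pow_eq p K (sig p K d) hx
  rw [h]
  congr 2
  exact congrArg Units.val ((cycloGalEquiv p K).apply_symm_apply d)

theorem torsion_le_comap (d : (ZMod p)ˣ) : torsion K ≤ (torsion K).comap (sigU p K d) := by
  intro u hu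
  rw [Subgroup.mem_comap]
  exact (sigU p K d).isOfFinOrder hu

/-- `σ_d` on `E / torsion` -/
noncomputable def gAdd (d : (ZMod p)ˣ) : MT K →+ MT K :=
  MonoidHom.toAdditive
    (QuotientGroup.map (torsion K) (torsion K) (sigU p K d) (torsion_le_comap p K d))

/-- `σ_d` on `E / torsion`, as a linear map -/
noncomputable def gM (d : (ZMod p)ˣ) : MT K →ₗ[ℤ] MT K := (gAdd p K d).toIntLinearMap

theorem gM_toM (d : (ZMod p)ˣ) (u : (𝓞 K)ˣ) : gM p K d (toM u) = toM (sigU p K d u) := rfl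

theorem gM_pow_toM (d : (ZMod p)ˣ) (i : ℕ) (u : (𝓞 K)ˣ) :
    (gM p K d ^ i) (toM u) = toM (sigU p K (d ^ i) u) := by
  induction i with
  | zero => rw [pow_zero, pow_zero, sigU_one]; rfl
  | succ i ih => rw [pow_succ', pow_succ', Module.End.mul_apply, ih, gM_toM, sigU_mul]

/-! ### logarithms of absolute values -/

/-- `u ↦ log w(u)` -/
noncomputable def logW (w : InfinitePlace K) : (𝓞 K)ˣ →* Multiplicative ℝ where
  toFun u := Multiplicative.ofAdd (Real.log (w ((u : 𝓞 K) : K)))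
  map_one' := by simp
  map_mul' u v := by
    have e : (((u * v : (𝓞 K)ˣ) : 𝓞 K) : K) = ((u : 𝓞 K) : K) * ((v : 𝓞 K) : K) := by
      rw [Units.val_mul]
      exact map_mul (algebraMap (𝓞 K) K) _ _
    rw [← ofAdd_add, e, map_mul,
      Real.log_mul ((map_ne_zero w).mpr (coe_ne_zero u)) ((map_ne_zero w).mpr (coe_ne_zero v))]

theorem logW_torsion (w : InfinitePlace K) (u : (𝓞 K)ˣ) (hu : u ∈ torsion K) :
    logW K w u = 1 := by
  have h := (mem_torsion K).mp hu w
  show Multiplicative.ofAdd (Real.log (w ((u : 𝓞 K) : K))) = 1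
  rw [h, Real.log_one]
  rfl

/-- `log w` on `E / torsion` -/
noncomputable def LW (w : InfinitePlace K) : MT K →+ ℝ :=
  MonoidHom.toAdditiveLeft (QuotientGroup.lift (torsion K) (logW K w) (logW_torsion K w))

theorem LW_toM (w : InfinitePlace K) (u : (𝓞 K)ˣ) :
    LW K w (toM u) = Real.log (w ((u : 𝓞 K) : K)) := rfl

/-! ### embeddings and the Galois action -/

theorem sig_mul (d e : (ZMod p)ˣ) (x : K) : sig p K (d * e) x = sig p K d (sig p K e x) := by
  unfold sig
  rw [map_mul]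
  rfl

theorem eq_one_of_sig_eq (e : (ZMod p)ˣ) (h : ∀ x : K, sig p K e x = x) : e = 1 := by
  have h1 : sig p K e = 1 := AlgEquiv.ext h
  unfold sig at h1
  exact (MulEquiv.map_eq_one_iff _).mp h1

theorem ringHom_ext_zeta (f g : K →+* ℂ)
    (h : f (IsCyclotomicExtension.zeta p ℚ K) = g (IsCyclotomicExtension.zeta p ℚ K)) : f = g := by
  have h1 := ((IsCyclotomicExtension.zeta_spec p ℚ K).powerBasis ℚ).algHom_ext
    (f := f.toRatAlgHom) (g := g.toRatAlgHom) (by simpa using h)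
  ext x
  exact DFunLike.congr_fun h1 x

theorem conjugate_eq_comp_sig (φ : K →+* ℂ) :
    ComplexEmbedding.conjugate φ = φ.comp (sig p K (-1) : K →+* K) := by
  have hp : p ≠ 0 := (Fact.out : p.Prime).ne_zero
  have hp1 : 1 ≤ p := (Fact.out : p.Prime).one_le
  have hz := (IsCyclotomicExtension.zeta_spec p ℚ K).pow_eq_one
  apply ringHom_ext_zeta p K
  have h1 : (φ (IsCyclotomicExtension.zeta p ℚ K)) ^ p = 1 := by rw [← map_pow, hz, map_one]
  have h2 : ‖φ (IsCyclotomicExtension.zeta p ℚ K)‖ = 1 := Complex.norm_eq_one_of_pow_eq_one h1 hp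
  rw [ComplexEmbedding.conjugate_coe_eq, ← Complex.inv_eq_conj h2, RingHom.comp_apply]
  have h3 : (sig p K (-1) : K →+* K) (IsCyclotomicExtension.zeta p ℚ K) =
      (IsCyclotomicExtension.zeta p ℚ K) ^ (p - 1) := by
    have := sig_zeta p K (-1) hz
    have hv : ((-1 : ZMod p)).val = p - 1 := by
      have hlt : Fact (1 < p) := ⟨(Fact.out : p.Prime).one_lt⟩
      rw [ZMod.neg_val, if_neg one_ne_zero, ZMod.val_one]
    rw [Units.val_neg, Units.val_one, hv] at this
    exact this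
  rw [h3, map_pow]
  refine inv_eq_of_mul_eq_one_right ?_
  rw [← pow_succ', Nat.sub_add_cancel hp1, h1]

/-- the place `x ↦ w (σ_e x)` -/
theorem place_sig_neg_one (w : InfinitePlace K) (x : K) : w (sig p K (-1) x) = w x := by
  have h1 : w.comap (sig p K (-1) : K →+* K) = w := by
    conv_lhs => rw [← InfinitePlace.mk_embedding w]
    conv_rhs => rw [← InfinitePlace.mk_embedding w]
    rw [InfinitePlace.comap_mk, ← conjugate_eq_comp_sig, InfinitePlace.mk_conjugate_eq]
  have h2 := InfinitePlace.comap_apply w (sig p K (-1) : K →+* K) x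
  rw [h1] at h2
  exact h2.symm

theorem eq_or_eq_neg_of_comap_eq (w : InfinitePlace K) (e : (ZMod p)ˣ)
    (h : w.comap (sig p K e : K →+* K) = w) : e = 1 ∨ e = -1 := by
  have h1 : InfinitePlace.mk (w.embedding.comp (sig p K e : K →+* K)) =
      InfinitePlace.mk w.embedding := by
    rw [← InfinitePlace.comap_mk, InfinitePlace.mk_embedding, h]
  rcases InfinitePlace.mk_eq_iff.mp h1 with h2 | h2
  · left
    refine eq_one_of_sig_eq p K e fun x => ?_
    exact w.embedding.injective (DFunLike.congr_fun h2 x)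
  · right
    rw [conjugate_eq_comp_sig p K] at h2
    have h3 : e * -1 = 1 := by
      refine eq_one_of_sig_eq p K _ fun x => ?_
      rw [sig_mul]
      exact w.embedding.injective (DFunLike.congr_fun h2 x)
    rw [mul_neg, mul_one] at h3
    rw [← h3, neg_neg]

/-! ### relations on `E / torsion` -/

variable {K} in
theorem coe_mul_units (u v : (𝓞 K)ˣ) :
    (((u * v : (𝓞 K)ˣ) : 𝓞 K) : K) = ((u : 𝓞 K) : K) * ((v : 𝓞 K) : K) := by
  rw [Units.val_mul]
  exact map_mul (algebraMap (𝓞 K) K) _ _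

variable {K} in
theorem toM_eq_of_places (a b : (𝓞 K)ˣ)
    (h : ∀ w : InfinitePlace K, w ((a : 𝓞 K) : K) = w ((b : 𝓞 K) : K)) : toM a = toM b := by
  have h1 : b⁻¹ * a ∈ torsion K := by
    rw [mem_torsion]
    intro w
    have h2 : w ((b : 𝓞 K) : K) * w (((b⁻¹ * a : (𝓞 K)ˣ) : 𝓞 K) : K) = w ((b : 𝓞 K) : K) := by
      rw [← map_mul, ← coe_mul_units, mul_inv_cancel_left, h]
    have h3 : w ((b : 𝓞 K) : K) ≠ 0 := (map_ne_zero w).mpr (coe_ne_zero b)
    exact mul_left_cancel₀ h3 (h2.trans (mul_one _).symm)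
  have h4 : a = b * (b⁻¹ * a) := by rw [mul_inv_cancel_left]
  rw [h4, toM_mul, (toM_eq_zero_iff _).mpr h1, add_zero]

theorem coe_sigU' (d : (ZMod p)ˣ) (u : (𝓞 K)ˣ) :
    (((sigU p K d u : (𝓞 K)ˣ) : 𝓞 K) : K) = sig p K d ((u : 𝓞 K) : K) := by
  rw [coe_sigU, coe_sigInt]

theorem gM_neg_one (x : MT K) : gM p K (-1) x = x := by
  obtain ⟨u, rfl⟩ := toM_surjective x
  rw [gM_toM]
  refine toM_eq_of_places _ _ fun w => ?_
  rw [coe_sigU', place_sig_neg_one]

theorem coe_prod_units {ι : Type*} (s : Finset ι) (f : ι → (𝓞 K)ˣ) :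
    (((∏ i ∈ s, f i : (𝓞 K)ˣ) : 𝓞 K) : K) = ∏ i ∈ s, ((f i : 𝓞 K) : K) := by
  classical
  induction s using Finset.induction_on with
  | empty => simp
  | insert a s ha ih => rw [Finset.prod_insert ha, Finset.prod_insert ha, coe_mul_units, ih]

theorem prod_sigU_mem_torsion (u : (𝓞 K)ˣ) : ∏ δ : (ZMod p)ˣ, sigU p K δ u ∈ torsion K := by
  have : IsGalois ℚ K := IsCyclotomicExtension.isGalois {p} ℚ K
  have h1 : (((∏ δ : (ZMod p)ˣ, sigU p K δ u : (𝓞 K)ˣ) : 𝓞 K) : K) =
      algebraMap ℚ K (Algebra.norm ℚ ((u : 𝓞 K) : K)) := by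
    rw [coe_prod_units, Algebra.norm_eq_prod_automorphisms]
    simp_rw [coe_sigU']
    exact Fintype.prod_equiv (cycloGalEquiv p K).symm.toEquiv _ _ fun δ => rfl
  rw [mem_torsion]
  intro w
  show w (((∏ δ : (ZMod p)ˣ, sigU p K δ u : (𝓞 K)ˣ) : 𝓞 K) : K) = 1
  rw [h1]
  rcases abs_eq (zero_le_one' ℚ) |>.mp (Units.norm K u) with h2 | h2
  · rw [h2]; simp
  · rw [h2, map_neg, map_one, ← InfinitePlace.norm_embedding_eq, map_neg, map_one, norm_neg,
      norm_one]

section generator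

variable {p} (hp5 : 5 ≤ p) (d : (ZMod p)ˣ) (hd : ∀ x, x ∈ Subgroup.zpowers d)

include hp5 in
theorem two_mul_half : 2 * ((p - 1) / 2) = p - 1 := by
  have hodd : Odd p := (Fact.out : p.Prime).odd_of_ne_two (by omega)
  obtain ⟨k, hk⟩ := hodd
  omega

include hd in
theorem orderOf_gen : orderOf d = p - 1 := by
  rw [orderOf_eq_card_of_forall_mem_zpowers hd, Nat.card_eq_fintype_card, ZMod.card_units]

include hp5 hd in
theorem gen_pow_half : d ^ ((p - 1) / 2) = -1 := by
  have h2 := two_mul_half hp5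
  have h1 : d ^ ((p - 1) / 2) * d ^ ((p - 1) / 2) = 1 := by
    rw [← pow_add, ← two_mul, h2, ← orderOf_gen d hd, pow_orderOf_eq_one]
  have h3 : d ^ ((p - 1) / 2) ≠ 1 :=
    pow_ne_one_of_lt_orderOf (by omega) (by rw [orderOf_gen d hd]; omega)
  have h4 : ((d ^ ((p - 1) / 2) : (ZMod p)ˣ) : ZMod p) * ((d ^ ((p - 1) / 2) : (ZMod p)ˣ) : ZMod p)
      = 1 := by
    rw [← Units.val_mul, h1, Units.val_one]
  rcases mul_self_eq_one_iff.mp h4 with h5 | h5
  · exact absurd (Units.ext h5) h3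
  · exact Units.ext (by rw [h5, Units.val_neg, Units.val_one])

include hp5 hd in
theorem half_dvd_of_pow (k : ℕ) (h : d ^ k = 1 ∨ d ^ k = -1) : (p - 1) / 2 ∣ k := by
  have h1 : d ^ (2 * k) = 1 := by
    rw [mul_comm, pow_mul]
    rcases h with h | h <;> rw [h] <;> simp
  have h2 := orderOf_dvd_of_pow_eq_one h1
  rw [orderOf_gen d hd, ← two_mul_half hp5] at h2
  exact Nat.dvd_of_mul_dvd_mul_left (by norm_num) h2

include hp5 hd in
theorem gM_pow_half : gM p K d ^ ((p - 1) / 2) = 1 := by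
  ext x
  obtain ⟨u, rfl⟩ := toM_surjective x
  rw [gM_pow_toM, gen_pow_half hp5 d hd, ← gM_toM, gM_neg_one]
  rfl

include hp5 hd in
theorem sum_gM_pow : ∑ i ∈ range ((p - 1) / 2), gM p K d ^ i = 0 := by
  have h1 : ∑ i ∈ range (p - 1), gM p K d ^ i = 0 := by
    ext x
    obtain ⟨u, rfl⟩ := toM_surjective x
    rw [LinearMap.sum_apply]
    simp_rw [gM_pow_toM]
    rw [← toM_prod, LinearMap.zero_apply, toM_eq_zero_iff]
    have h2 := prod_sigU_mem_torsion p K u
    rw [← IsCyclic.image_range_orderOf hd, Finset.prod_image, orderOf_gen d hd] at h2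
    · exact h2
    · intro i hi j hj hij
      exact pow_injOn_Iio_orderOf (by simpa using hi) (by simpa using hj) hij
  rw [← two_mul_half hp5, two_mul, Finset.sum_range_add] at h1
  simp_rw [pow_add, gM_pow_half K hp5 d hd, one_mul] at h1
  ext x
  have h2 := LinearMap.congr_fun h1 x
  rw [LinearMap.add_apply, LinearMap.zero_apply, ← two_smul ℤ] at h2
  rw [LinearMap.zero_apply]
  exact (smul_eq_zero.mp h2).resolve_left (by norm_num)

include hp5 hd in
/-- A Minkowski unit is a cyclic vector for `σ_d` on `E / torsion`. -/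
theorem exists_cyclic_vector : ∃ m : MT K, ∀ a : ℕ → ℤ,
    ∑ i ∈ range ((p - 1) / 2 - 1), a i • (gM p K d ^ i) m = 0 →
      ∀ i < (p - 1) / 2 - 1, a i = 0 := by
  have h2n := two_mul_half hp5
  obtain ⟨w₁⟩ := (inferInstance : Nonempty (InfinitePlace K))
  obtain ⟨u, hu⟩ := dirichletUnitTheorem.exists_unit K w₁
  refine ⟨toM u, fun a ha => ?_⟩
  have hper : ∀ k, LW K w₁ ((gM p K d ^ (k + (p - 1) / 2)) (toM u)) =
      LW K w₁ ((gM p K d ^ k) (toM u)) := by
    intro k
    rw [pow_add, gM_pow_half K hp5 d hd, mul_one]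
  have hneg : ∀ k, ¬ (p - 1) / 2 ∣ k → LW K w₁ ((gM p K d ^ k) (toM u)) < 0 := by
    intro k hk
    rw [gM_pow_toM, LW_toM, coe_sigU']
    have hne : w₁.comap (sig p K (d ^ k) : K →+* K) ≠ w₁ := fun h =>
      hk (half_dvd_of_pow hp5 d hd k (eq_or_eq_neg_of_comap_eq p K w₁ _ h))
    have h3 := hu _ hne
    rwa [InfinitePlace.comap_apply] at h3
  have hsum : ∑ k ∈ range ((p - 1) / 2), LW K w₁ ((gM p K d ^ k) (toM u)) = 0 := by
    have h3 := LinearMap.congr_fun (sum_gM_pow K hp5 d hd) (toM u)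
    rw [LinearMap.sum_apply, LinearMap.zero_apply] at h3
    have h4 := congrArg (LW K w₁) h3
    rwa [map_sum, map_zero] at h4
  have hR : ∑ i ∈ range ((p - 1) / 2),
      (if i < (p - 1) / 2 - 1 then a i else 0) • (gM p K d ^ i) (toM u) = 0 := by
    have h3 : (p - 1) / 2 = ((p - 1) / 2 - 1) + 1 := by omega
    conv_lhs => rw [h3, Finset.sum_range_succ]
    rw [if_neg (by omega), zero_smul, add_zero, ← ha]
    refine Finset.sum_congr rfl fun i hi => ?_
    rw [if_pos (by simpa using hi)]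
  have hrel : ∀ s, ∑ i ∈ range ((p - 1) / 2),
      (((if i < (p - 1) / 2 - 1 then a i else 0 : ℤ)) : ℝ) *
        LW K w₁ ((gM p K d ^ (i + s)) (toM u)) = 0 := by
    intro s
    have h3 := congrArg (fun x => LW K w₁ ((gM p K d ^ s) x)) hR
    simp only [map_sum, map_zsmul, map_zero] at h3
    rw [← h3]
    refine Finset.sum_congr rfl fun i _ => ?_
    rw [zsmul_eq_mul, add_comm i s, pow_add, Module.End.mul_apply]
  have h5 := circulant_lemma ((p - 1) / 2) (by omega)
    (fun k => LW K w₁ ((gM p K d ^ k) (toM u))) hper hneg hsum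
    (fun i => if i < (p - 1) / 2 - 1 then a i else 0) (by simp) hrel
  intro i hi
  have h6 := h5 i (by omega)
  simpa [hi] using h6

include hp5 in
theorem finrank_MT_eq : Module.finrank ℤ (MT K) = (p - 1) / 2 - 1 := by
  rw [finrank_MT, Units.rank, InfinitePlace.card_eq_nrRealPlaces_add_nrComplexPlaces,
    IsCyclotomicExtension.Rat.nrRealPlaces_eq_zero (n := p) K (by omega),
    IsCyclotomicExtension.Rat.nrComplexPlaces_eq_totient_div_two p K,
    Nat.totient_prime Fact.out, zero_add]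

end generator

end Fermat.Agent.S14.U1
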